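/-
PROJECT R (row 37 by S43), gate G, block C2 = THE RELATIVE LIFT (helper10), INSTANCE SIDE: THE GOOD
COORDINATES `x1`, `x2` OF `Seam.KummerCover` ON THE TWO COMPONENTS OF `E'' = ℚ̄(X₁(N; r))`.

Against helper18's `C1/CoreZX1Assembly` (`Inputs1`, `R1 X`, `R2 X`, `jR H`): the coordinate of the first
component is `α j`, of the second `β j` (these are the fields `x1`, `x2` of `x1DatumOf`).

* `(reg)` : `α j` is regular on the discs of `R1 X`, `β j` on the discs of `R2 X`: helper7's
  `C1/CuspRedX1.regOn_jgen1` (`j` is regular on the non-cuspidal discs of level `N`) transported along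
  `R1_r_eq_some_iff` / `R2_r_eq_some_iff`;
* `(unr)` : the reduction of both is `j̄`, unramified at the good places: the hypothesis `hunr`, which is
  the second clause of helper7's `Generic/GoodKGen.IsGood` (`isGood_unr`).

`coord1 X hunr : GoodCoord (R1 X)`, `coord2 X hunr : GoodCoord (R2 X)`; `unramOver_of_forall` : the field
`unram_i` of the cover from (IG-6).
-/
import Fermat.Agent.S43.LG1.C1.CoreZX1Assembly
import Fermat.Agent.S43.LG1.C1.CuspRedX1
import Fermat.Agent.S43.LG1.C1.Generic.GoodKGen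
import Fermat.Agent.S43.LG1.C2.Seam

set_option autoImplicit false
set_option linter.unusedSectionVars false
set_option linter.style.haveILetI false
set_option synthInstance.maxHeartbeats 400000

noncomputable section

namespace Fermat.Agent.S43.LG1.C2.Inst.Coord

open ModularCurve AlgebraicCurve IsLocalRing
open Fermat.Agent.S18.NonSpecial Fermat.Agent.S34.NodalDefs
open Fermat.Agent.S37.Deuring.Core
open Fermat.Agent.S34.Generic.RestrAlong
open Fermat.Agent.S48.B.Defs.Model Fermat.Agent.S48.B.B1.Seams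
open Fermat.Agent.S48.B.ES.DegreeBeta1
open Fermat.Agent.S43.LG1.C1.Seam Fermat.Agent.S43.LG1.C1.Z1X1
open Fermat.Agent.S43.LG1.C1.CoreZX1Datum Fermat.Agent.S43.LG1.C1.CoreZX1Assembly
open Fermat.Agent.S43.LG1.C1.ResidueFrobX1 Fermat.Agent.S43.LG1.C1.Generic.FibX1
open Fermat.Agent.S43.LG1.C2.Seam

local notation "Kb" => AlgebraicClosure ℚ

attribute [local instance] algShortcut1

/-- shortcut instances (all propositions) -/
local instance instPDBar1 (N : ℕ) [NeZero N] : HasPrincipalDivisors Kb ↥(F1Bar N) :=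
  Fermat.Agent.S48.B.Inj.Basics.hasPrincipalDivisors_L
    (Fermat.Agent.S43.LG1.C1.LevelMSurjX1.isFF_jgen1 N)

local instance instACk1 (A : ValuationSubring Kb) : IsAlgClosed (ResidueField ↥A) :=
  Fermat.Agent.S18.ResidueBasics.isAlgClosed_residueField A

/-! ### the field `unram_i` of the cover -/

/-- a cover unramified everywhere is unramified over the good discs -/
theorem unramOver_of_forall {L : Type*} [Field L] {k : Type*} [Field k] {A : ValuationSubring L}
    {π : A →+* k} {F0 : Type*} [Field F0] [Algebra L F0] {F : Type*} [Field F] [Algebra L F]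
    [Algebra F0 F] [IsScalarTower L F0 F] [Algebra.IsIntegral F0 F] {κ : Type*} [Field κ]
    [Algebra k κ] (R0 : SmoothRed A π F0 κ)
    (h : ∀ P : Place L F, P.ramificationIndex F0 = 1) : UnramOver R0 F :=
  fun P _ _ _ => h P

/-! ### the coordinates -/

variable {r : ℕ} [hrF : Fact r.Prime] {N : ℕ} [NeZero N] {A : ValuationSubring Kb} [NeZero r]
variable {hr : r.Prime} {hA : A.LiesOverPrime r} {hrN : ¬ r ∣ N}
variable [HasPrincipalDivisors Kb ↥(F1pBar N r)]
variable [HasPrincipalDivisors (ResidueField ↥A) ↥(F1C N (ResidueField ↥A))]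
variable {gL gk : ℕ} {H : Hyp (gaussDatum1 N A hr hA hrN) gL gk}
variable [CharP (ResidueField ↥A) r]

/-- a place at which `j̄ - γ` is a uniformizer is not a pole of `j̄` -/
theorem ord_jC_nonneg_of_unr (Q : Place (ResidueField ↥A) ↥(F1C N (ResidueField ↥A)))
    (h : ∃ γ : ResidueField ↥A, Q.ord (Fermat.Agent.S48.B.Red.Seams.jC N (ResidueField ↥A) -
      algebraMap (ResidueField ↥A) _ γ) = 1) :
    0 ≤ Q.ord (Fermat.Agent.S48.B.Red.Seams.jC N (ResidueField ↥A)) := by
  obtain ⟨γ, hγ⟩ := h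
  set x := Fermat.Agent.S48.B.Red.Seams.jC N (ResidueField ↥A) with hx
  rcases eq_or_ne x 0 with h0 | h0
  · rw [h0, Place.ord_zero]
  have hne : x - algebraMap (ResidueField ↥A) _ γ ≠ 0 := by
    intro h1
    rw [h1, Place.ord_zero] at hγ
    exact zero_ne_one hγ
  have h1 : Q.adicValuation (x - algebraMap (ResidueField ↥A) _ γ) ≤ 1 :=
    (Fermat.Agent.S24.Ord.ord_nonneg_iff Q hne).mp (by rw [hγ]; exact zero_le_one)
  have h2 : Q.adicValuation (algebraMap (ResidueField ↥A) _ γ) ≤ 1 := by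
    rw [← Fermat.Agent.S24.Ord.mem_iff]
    exact Q.algebraMap_mem' γ
  have h3 : Q.adicValuation x ≤ 1 := by
    have : x = (x - algebraMap (ResidueField ↥A) _ γ) + algebraMap (ResidueField ↥A) _ γ := by ring
    rw [this]
    exact Valuation.map_add_le _ h1 h2
  exact (Fermat.Agent.S24.Ord.ord_nonneg_iff Q h0).mpr h3

/-- `j` is regular at the place of level `N` below a place specialising to a non-cuspidal place -/
theorem adicValuation_jR_le_one (P0 : Place Kb ↥(F1Bar N))
    (hQ : 0 ≤ (placeMap H P0).ord (Fermat.Agent.S48.B.Red.Seams.jC N (ResidueField ↥A))) :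
    P0.adicValuation ((jR H : (redDatum H).O) : ↥(F1Bar N)) ≤ 1 :=
  Fermat.Agent.S43.LG1.C1.CuspRedX1.regOn_jgen1 (igusaDegN N) hr hrN hA H _ hQ P0 rfl

/-- **the coordinate of the first component** -/
def coord1 (X : Inputs1 hr hA hrN H)
    (hunr : ∀ Q ∈ X.good, ∃ γ : ResidueField ↥A,
      Q.ord (Fermat.Agent.S48.B.Red.Seams.jC N (ResidueField ↥A) -
        algebraMap (ResidueField ↥A) _ γ) = 1) : GoodCoord (R1 X) where
  x := ⟨alpha1 N r Kb (jR H : ↥(F1Bar N)), X.α_mem (jR H)⟩
  reg := by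
    intro Q hQ P hP
    obtain ⟨hgood, hsp, -⟩ := (R1_r_eq_some_iff X P Q).mp hP
    show P.adicValuation (alpha1 N r Kb (jR H : ↥(F1Bar N))) ≤ 1
    rw [adicValuation_map_le_one_iff (alpha1 N r Kb) (isIntegral_alpha1 hr hrN)]
    refine adicValuation_jR_le_one _ ?_
    have h1 : placeMap H (resAlong (alpha1 N r Kb) (isIntegral_alpha1 hr hrN) P) = Q := hsp
    rw [h1]
    exact ord_jC_nonneg_of_unr Q (hunr Q hgood)
  unr := by
    intro Q hQ
    rw [red_alpha_jR X]
    exact hunr Q hQ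

/-- **the coordinate of the second component** -/
def coord2 (X : Inputs1 hr hA hrN H)
    (hunr : ∀ Q ∈ X.good, ∃ γ : ResidueField ↥A,
      Q.ord (Fermat.Agent.S48.B.Red.Seams.jC N (ResidueField ↥A) -
        algebraMap (ResidueField ↥A) _ γ) = 1) : GoodCoord (R2 X) where
  x := ⟨beta1 N r Kb (jR H : ↥(F1Bar N)), beta_jR_mem X⟩
  reg := by
    intro Q hQ P hP
    obtain ⟨hgood, hsp, -⟩ := (R2_r_eq_some_iff X P Q).mp hP
    show P.adicValuation (beta1 N r Kb (jR H : ↥(F1Bar N))) ≤ 1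
    rw [adicValuation_map_le_one_iff (beta1 N r Kb) (isIntegral_beta1 hr hrN)]
    refine adicValuation_jR_le_one _ ?_
    have h1 : placeMap H (resAlong (beta1 N r Kb) (isIntegral_beta1 hr hrN) P) = Q := hsp
    rw [h1]
    exact ord_jC_nonneg_of_unr Q (hunr Q hgood)
  unr := by
    intro Q hQ
    rw [red_beta_jR X]
    exact hunr Q hQ

@[simp] theorem coe_coord1_x (X : Inputs1 hr hA hrN H) (hunr) :
    (((coord1 X hunr).x : (R1 X).O) : ↥(F1pBar N r)) = alpha1 N r Kb (jR H : ↥(F1Bar N)) := rfl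

@[simp] theorem coe_coord2_x (X : Inputs1 hr hA hrN H) (hunr) :
    (((coord2 X hunr).x : (R2 X).O) : ↥(F1pBar N r)) = beta1 N r Kb (jR H : ↥(F1Bar N)) := rfl

/-- `hunr` from helper7's `IsGood` -/
theorem isGood_unr (X : Inputs1 hr hA hrN H)
    (hgood : ∀ Q ∈ X.good,
      Fermat.Agent.S43.LG1.C1.Generic.GoodKGen.IsGood (hJ1 N (ResidueField ↥A)) r Q) :
    ∀ Q ∈ X.good, ∃ γ : ResidueField ↥A,
      Q.ord (Fermat.Agent.S48.B.Red.Seams.jC N (ResidueField ↥A) -
        algebraMap (ResidueField ↥A) _ γ) = 1 := by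
  intro Q hQ
  obtain ⟨γ, hγ⟩ := (hgood Q hQ).2
  exact ⟨γ, hγ⟩

end Fermat.Agent.S43.LG1.C2.Inst.Coord

end
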